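import Fermat.Agent.ToralEntropy.Main
import Mathlib.LinearAlgebra.FreeModule.Finite.CardQuotient
import Mathlib.LinearAlgebra.Matrix.NonsingularInverse
import Mathlib.LinearAlgebra.Matrix.ToLinearEquiv

/-!
# The kernel and the fixed points of a toral endomorphism

For an integer matrix `B` of nonzero determinant the kernel on the torus is `ℤ ^ ι / B ℤ ^ ι`, of
`|det B|` points; for determinant zero it contains a segment.
-/

set_option autoImplicit false

noncomputable section

namespace FA.ToralPeriodic

open FA.ToralEntropy Set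

variable {ι : Type*} [Fintype ι]

theorem toral_add (B : Matrix ι ι ℤ) (x y : ι → UnitAddCircle) :
    toral B (x + y) = toral B x + toral B y := by
  funext i
  simp [toral, smul_add, Finset.sum_add_distrib]

theorem toral_sub_matrix (A B : Matrix ι ι ℤ) (x : ι → UnitAddCircle) :
    toral (A - B) x = toral A x - toral B x := by
  funext i
  simp [toral, sub_smul, Finset.sum_sub_distrib]

theorem toral_mul (A B : Matrix ι ι ℤ) (x : ι → UnitAddCircle) :
    toral (A * B) x = toral A (toral B x) := by
  funext i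
  simp only [toral, Matrix.mul_apply, Finset.sum_smul, Finset.smul_sum, mul_smul]
  exact Finset.sum_comm

omit [Fintype ι] in
theorem proj_add (u v : ι → ℝ) : proj (u + v) = proj u + proj v := rfl

omit [Fintype ι] in
theorem proj_eq_zero_iff (v : ι → ℝ) : proj v = 0 ↔ ∃ m : ι → ℤ, v = fun i => (m i : ℝ) := by
  rw [funext_iff]
  constructor
  · intro h
    choose m hm using fun i => (AddCircle.coe_eq_zero_iff (1 : ℝ)).1 (h i)
    exact ⟨m, funext fun i => by simpa using (hm i).symm⟩
  · rintro ⟨m, rfl⟩ i
    exact (AddCircle.coe_eq_zero_iff (1 : ℝ)).2 ⟨m i, by simp⟩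

omit [Fintype ι] in
theorem exists_proj_eq (x : ι → UnitAddCircle) : ∃ v, proj v = x := by
  choose v hv using fun i => QuotientAddGroup.mk_surjective (x i)
  exact ⟨v, funext hv⟩

variable [DecidableEq ι]

theorem toral_one (x : ι → UnitAddCircle) : toral (1 : Matrix ι ι ℤ) x = x := by
  funext i
  simp [toral, Matrix.one_apply]

theorem iterate_toral (A : Matrix ι ι ℤ) (n : ℕ) (x : ι → UnitAddCircle) :
    (toral A)^[n] x = toral (A ^ n) x := by
  induction n with
  | zero => rw [Function.iterate_zero_apply, pow_zero, toral_one]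
  | succ n ih => rw [Function.iterate_succ_apply', ih, pow_succ', toral_mul]

/-- The fixed points of an iterate form the kernel of a matrix. -/
theorem fixedPoints_eq (A : Matrix ι ι ℤ) (n : ℕ) :
    {x | (toral A)^[n] x = x} = {x | toral (A ^ n - 1) x = 0} := by
  ext x
  simp only [mem_ofPred_eq, iterate_toral, toral_sub_matrix, toral_one, sub_eq_zero]

/-- **The kernel is infinite for determinant zero.** -/
theorem infinite_kernel {B : Matrix ι ι ℤ} (hB : B.det = 0) :
    {x | toral B x = 0}.Infinite := by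
  have hdet : (B.map (Int.cast : ℤ → ℝ)).det = 0 := by
    rw [← Int.cast_det, hB, Int.cast_zero]
  obtain ⟨v, hv, hBv⟩ := Matrix.exists_mulVec_eq_zero_iff.2 hdet
  obtain ⟨i, hi⟩ := Function.ne_iff.1 hv
  have hi' : 0 < |v i| := abs_pos.2 hi
  refine Set.infinite_of_injOn_mapsTo (s := Ioo (0 : ℝ) (1 / |v i|)) (f := fun t => proj (t • v))
    (fun s hs t ht hst => ?_) (fun t _ => ?_) (Ioo_infinite (by positivity))
  · obtain ⟨m, hm⟩ := (AddCircle.coe_eq_zero_iff (1 : ℝ)).1
      (show ((s * v i - t * v i : ℝ) : UnitAddCircle) = 0 from sub_eq_zero.2 (congrFun hst i))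
    simp only [zsmul_eq_mul, mul_one] at hm
    have hlt : |(m : ℝ)| < 1 := by
      have h' : |s - t| < 1 / |v i| := abs_lt.2 ⟨by linarith [hs.1, ht.2], by linarith [hs.2, ht.1]⟩
      rw [hm, ← sub_mul, abs_mul]
      rwa [lt_div_iff₀ hi'] at h'
    have hm0 : m = 0 := Int.abs_lt_one_iff.1 (by exact_mod_cast hlt)
    rw [hm0, Int.cast_zero, ← sub_mul, eq_comm, mul_eq_zero, or_iff_left (show v i ≠ 0 from hi),
      sub_eq_zero] at hm
    exact hm
  · show toral B (proj (t • v)) = 0
    rw [toral_proj, realMap, map_smul, Matrix.mulVecLin_apply, hBv, smul_zero]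
    rfl

/-- The map `m ↦ B⁻¹ m` into the torus. -/
def latticeHom (B : Matrix ι ι ℤ) : (ι → ℤ) →+ (ι → UnitAddCircle) :=
  AddMonoidHom.mk' (fun m => proj ((B.map (Int.cast : ℤ → ℝ))⁻¹.mulVec fun i => (m i : ℝ)))
    fun a b => by
      rw [← proj_add, ← Matrix.mulVec_add]
      congr 2
      funext i
      simp

/-- **The kernel has `|det B|` points.** -/
theorem card_kernel {B : Matrix ι ι ℤ} (hB : B.det ≠ 0) :
    {x | toral B x = 0}.Finite ∧ Nat.card {x | toral B x = 0} = B.det.natAbs := by
  set R := B.map (Int.cast : ℤ → ℝ) with hR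
  have hunit : IsUnit R.det := by
    rw [hR, ← Int.cast_det]
    exact isUnit_iff_ne_zero.2 (Int.cast_ne_zero.2 hB)
  have hcast : ∀ k : ι → ℤ, R.mulVec (fun i => (k i : ℝ)) = fun i => ((B.mulVec k i : ℤ) : ℝ) :=
    fun k => funext fun i => by simp [hR, Matrix.mulVec, dotProduct]
  have hker : (latticeHom B).ker = (LinearMap.range B.mulVecLin).toAddSubgroup := by
    ext m
    simp only [AddMonoidHom.mem_ker, latticeHom, AddMonoidHom.mk'_apply, proj_eq_zero_iff,
      Submodule.mem_toAddSubgroup, LinearMap.mem_range, Matrix.mulVecLin_apply]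
    rw [← hR]
    refine exists_congr fun k => ⟨fun h => ?_, fun h => ?_⟩
    · have h' := congrArg (R.mulVec ·) h
      simp only [Matrix.mulVec_mulVec, Matrix.mul_nonsing_inv _ hunit, Matrix.one_mulVec,
        hcast] at h'
      exact funext fun i => by exact_mod_cast (congrFun h' i).symm
    · rw [← h, ← hcast k, Matrix.mulVec_mulVec, Matrix.nonsing_inv_mul _ hunit, Matrix.one_mulVec]
  have hrange : ((latticeHom B).range : Set (ι → UnitAddCircle)) = {x | toral B x = 0} := by
    ext x
    constructor
    · rintro ⟨m, rfl⟩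
      show toral B (proj _) = 0
      rw [toral_proj, realMap, Matrix.mulVecLin_apply, Matrix.mulVec_mulVec,
        Matrix.mul_nonsing_inv _ hunit, Matrix.one_mulVec]
      exact (proj_eq_zero_iff _).2 ⟨m, rfl⟩
    · intro hx
      obtain ⟨v, rfl⟩ := exists_proj_eq x
      rw [mem_ofPred_eq, toral_proj, proj_eq_zero_iff] at hx
      obtain ⟨m, hm⟩ := hx
      refine ⟨m, ?_⟩
      rw [latticeHom, AddMonoidHom.mk'_apply, ← hm, realMap, Matrix.mulVecLin_apply,
        Matrix.mulVec_mulVec, Matrix.nonsing_inv_mul _ hunit, Matrix.one_mulVec]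
  have hcard : Nat.card {x | toral B x = 0} = B.det.natAbs := by
    rw [← hrange, SetLike.coe_sort_coe,
      ← Nat.card_congr (QuotientAddGroup.quotientKerEquivRange (latticeHom B)).toEquiv, hker]
    have hinj : Function.Injective B.mulVecLin := fun _ _ h =>
      Matrix.mulVec_injective_of_det_ne_zero hB h
    exact (Submodule.natAbs_det_equiv _ (LinearEquiv.ofInjective B.mulVecLin hinj)).symm.trans
      (congrArg Int.natAbs ((congrArg LinearMap.det (LinearMap.ext fun _ => rfl)).trans
        (LinearMap.det_toLin' B)))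
  refine ⟨?_, hcard⟩
  have : Finite {x | toral B x = 0} :=
    Nat.finite_of_card_ne_zero (hcard ▸ Int.natAbs_ne_zero.2 hB)
  exact Set.toFinite _

end FA.ToralPeriodic

end
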