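import Fermat.Agent.Subspace.ExponentialGrowth
import Mathlib.Analysis.Polynomial.MahlerMeasure
import Mathlib.Analysis.Complex.Polynomial.Basic
import Mathlib.LinearAlgebra.Matrix.Charpoly.Basic
import Mathlib.RingTheory.RootsOfUnity.Complex

/-!
# The growth of the numbers of Lehmer and Pierce

`log |z ^ n - 1| / n → log⁺ |z|` for an algebraic `z` that is no root of unity. For `|z| = 1` this
is Gelfond's theorem; here it is a case of the growth of exponential polynomials with two terms.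
-/

set_option autoImplicit false

noncomputable section

namespace FA.ToralPeriodic

open Polynomial Filter Topology Real

/-- **One root.** -/
theorem tendsto_log_pow_sub_one {z : ℂ} (halg : IsAlgebraic ℚ z)
    (hz : ∀ m : ℕ, 0 < m → z ^ m ≠ 1) :
    Tendsto (fun n : ℕ => log ‖z ^ n - 1‖ / n) atTop (𝓝 (log⁺ ‖z‖)) := by
  rcases eq_or_ne z 0 with rfl | hz0
  · refine tendsto_const_nhds.congr' ?_
    filter_upwards [eventually_ge_atTop 1] with n hn
    simp [zero_pow (Nat.one_le_iff_ne_zero.1 hn)]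
  rw [Metric.tendsto_atTop]
  intro ε hε
  have hmax : log⁺ ‖z‖ = log (max 1 ‖z‖) := Real.posLog_eq_log_max_one (norm_nonneg z)
  have hlow : ∀ᶠ n : ℕ in atTop, ∀ i, ‖(![z, 1] : Fin 2 → ℂ) i‖ ^ n * exp (-(ε / 2 * n)) ≤
      ‖∑ j, ((![1, -1] : Fin 2 → ℂ[X]) j).eval (n : ℂ) * (![z, 1] : Fin 2 → ℂ) j ^ n‖ := by
    refine FA.Subspace.eventually_norm_lower _ ?_ ?_ ?_ _ ?_ ?_ (half_pos hε)
    · simp [Fin.forall_fin_two, hz0]
    · simp [Fin.forall_fin_two, halg, isAlgebraic_one]
    · intro i j hij m hm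
      fin_cases i <;> fin_cases j <;> simp at hij ⊢
      · exact hz m hm
      · exact (hz m hm).symm
    · simp [Fin.forall_fin_two]
    · intro i j
      fin_cases i <;> by_cases hj : j = 0 <;>
        simp [hj, Polynomial.coeff_one, isAlgebraic_one, isAlgebraic_zero, IsAlgebraic.neg]
  obtain ⟨N, hN⟩ := eventually_atTop.1 hlow
  obtain ⟨M, hM⟩ := exists_nat_gt (2 * log 2 / ε)
  refine ⟨max (max N M) 1, fun n hn => ?_⟩
  simp only [max_le_iff] at hn
  have hnR : (0 : ℝ) < n := by exact_mod_cast hn.2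
  have hMn : 2 * log 2 < ε * n := by
    have := (div_lt_iff₀ hε).1 (hM.trans_le (by exact_mod_cast hn.1.2 : (M : ℝ) ≤ n))
    linarith
  have h := hN n hn.1.1
  simp only [Fin.sum_univ_two, Matrix.cons_val_zero, Matrix.cons_val_one, eval_one, eval_neg,
    one_mul, one_pow, mul_one, ← sub_eq_add_neg] at h
  have hpos : 0 < ‖z ^ n - 1‖ := norm_pos_iff.2 (sub_ne_zero.2 (hz n hn.2))
  have hlo : (max 1 ‖z‖) ^ n * exp (-(ε / 2 * n)) ≤ ‖z ^ n - 1‖ := by
    rcases le_total ‖z‖ 1 with h1 | h1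
    · simpa [max_eq_left h1] using h 1
    · simpa [max_eq_right h1] using h 0
  have hup : ‖z ^ n - 1‖ ≤ 2 * (max 1 ‖z‖) ^ n := by
    refine (norm_sub_le _ _).trans ?_
    rw [norm_pow, norm_one, two_mul]
    exact add_le_add (pow_le_pow_left₀ (norm_nonneg z) (le_max_right _ _) n)
      (one_le_pow₀ (le_max_left _ _))
  have h1 := Real.log_le_log (by positivity) hlo
  have h2 := Real.log_le_log hpos hup
  rw [Real.log_mul (by positivity) (exp_pos _).ne', Real.log_pow, Real.log_exp] at h1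
  rw [Real.log_mul (by norm_num) (by positivity), Real.log_pow] at h2
  rw [hmax, Real.dist_eq, abs_lt]
  constructor
  · rw [lt_sub_iff_add_lt, lt_div_iff₀ hnR]
    nlinarith
  · rw [sub_lt_iff_lt_add, div_lt_iff₀ hnR]
    nlinarith

/-- **The growth of the numbers of Lehmer and Pierce.** -/
theorem tendsto_log_pierce {f : ℤ[X]} (hf : f ≠ 0)
    (hroot : ∀ z ∈ f.aroots ℂ, ∀ m : ℕ, 0 < m → z ^ m ≠ 1) :
    Tendsto (fun n : ℕ => log ‖(f.leadingCoeff : ℂ) ^ n *
        ((f.aroots ℂ).map fun z => z ^ n - 1).prod‖ / n) atTop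
      (𝓝 (f.map (Int.castRingHom ℂ)).logMahlerMeasure) := by
  have halg : ∀ z ∈ f.aroots ℂ, IsAlgebraic ℚ z := fun z hz =>
    IsAlgebraic.extendScalars (algebraMap ℤ ℚ).injective_int
      (show IsAlgebraic ℤ z from ⟨f, (mem_aroots.1 hz).1, (mem_aroots.1 hz).2⟩)
  rw [logMahlerMeasure_eq_log_leadingCoeff_add_sum_log_roots,
    leadingCoeff_map_of_injective (Int.castRingHom ℂ).injective_int, eq_intCast]
  have hlim : Tendsto (fun n : ℕ => log ‖(f.leadingCoeff : ℂ)‖ +
      ((f.aroots ℂ).map fun z => log ‖z ^ n - 1‖ / n).sum) atTop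
      (𝓝 (log ‖(f.leadingCoeff : ℂ)‖ + ((f.aroots ℂ).map fun z => log⁺ ‖z‖).sum)) :=
    tendsto_const_nhds.add (tendsto_multiset_sum _ fun z hz =>
      tendsto_log_pow_sub_one (halg z hz) (hroot z hz))
  refine hlim.congr' ?_
  filter_upwards [eventually_ge_atTop 1] with n hn
  have hne : ∀ x ∈ (f.aroots ℂ).map (fun z => ‖z ^ n - 1‖), x ≠ 0 := fun x hx => by
    obtain ⟨z, hz, rfl⟩ := Multiset.mem_map.1 hx
    exact norm_ne_zero_iff.2 (sub_ne_zero.2 (hroot z hz n hn))
  have hprod : ‖((f.aroots ℂ).map fun z => z ^ n - 1).prod‖ =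
      ((f.aroots ℂ).map fun z => ‖z ^ n - 1‖).prod := by
    refine (map_multiset_prod (normHom : ℂ →*₀ ℝ) _).trans ?_
    rw [Multiset.map_map]
    rfl
  rw [norm_mul, norm_pow, hprod, Real.log_mul
      (pow_ne_zero _ (norm_ne_zero_iff.2 (Int.cast_ne_zero.2 (leadingCoeff_ne_zero.2 hf))))
      (Multiset.prod_ne_zero fun h => hne 0 h rfl),
    Real.log_multiset_prod hne, Real.log_pow, Multiset.map_map, add_div,
    mul_div_cancel_left₀ _ (Nat.cast_ne_zero.2 (Nat.one_le_iff_ne_zero.1 hn)), Multiset.sum_map_div]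
  rfl

variable {ι : Type*} [Fintype ι] [DecidableEq ι]

/-- The determinant of a monic polynomial in a matrix. -/
theorem det_aeval (A : Matrix ι ι ℂ) {g : ℂ[X]} (hg : g.Monic) :
    (aeval A g).det = (A.charpoly.roots.map fun z => g.eval z).prod := by
  set D : ℂ[X] →* ℂ := Matrix.detMonoidHom.comp (aeval A).toRingHom.toMonoidHom
  have hone : ∀ w : ℂ, D (X - C w) = (A.charpoly.roots.map fun z => z - w).prod := fun w => by
    have h := A.eval_charpoly w
    rw [(IsAlgClosed.splits A.charpoly).eval_eq_prod_roots_of_monic A.charpoly_monic] at h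
    change (aeval A (X - C w)).det = _
    rw [map_sub, aeval_X, aeval_C, Matrix.algebraMap_eq_diagonal,
      ← neg_sub (Matrix.diagonal _) A, Matrix.det_neg]
    refine Eq.trans (congrArg _ h.symm) ?_
    rw [← IsAlgClosed.card_roots_eq_natDegree.trans A.charpoly_natDegree_eq_dim,
      ← Multiset.card_map (fun x => w - x), ← Multiset.prod_map_neg]
    simp [Multiset.map_map]
  conv_lhs => rw [(IsAlgClosed.splits g).eq_prod_roots_of_monic hg]
  show D _ = _
  rw [map_multiset_prod, Multiset.map_map]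
  simp only [Function.comp_def, hone]
  rw [Multiset.prod_map_prod_map]
  refine congrArg Multiset.prod (Multiset.map_congr rfl fun z _ => ?_)
  rw [(IsAlgClosed.splits g).eval_eq_prod_roots_of_monic hg]

/-- The determinant of `A ^ n - 1`. -/
theorem det_pow_sub_one (A : Matrix ι ι ℤ) {n : ℕ} (hn : 0 < n) :
    (((A ^ n - 1).det : ℤ) : ℂ) = ((A.charpoly.aroots ℂ).map fun z => z ^ n - 1).prod := by
  have h := det_aeval (A.map (Int.castRingHom ℂ)) (monic_X_pow_sub_C (1 : ℂ) hn.ne')
  simp only [map_sub, map_pow, aeval_X, map_one, eval_sub, eval_pow, eval_X, eval_one,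
    Matrix.charpoly_map] at h
  rw [aroots_def, show algebraMap ℤ ℂ = Int.castRingHom ℂ from rfl, ← h,
    ← eq_intCast (Int.castRingHom ℂ), RingHom.map_det, RingHom.mapMatrix_apply,
    Matrix.map_sub _ (map_sub _), Matrix.map_pow, Matrix.map_one _ (map_zero _) (map_one _)]

end FA.ToralPeriodic

end
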