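import Fermat.Agent.ToralPeriodic.Kernel
import Fermat.Agent.ToralPeriodic.Growth

/-!
# Periodic points of a toral endomorphism

Their number is the number of Lehmer and Pierce of the characteristic polynomial, which grows with
the entropy.
-/

set_option autoImplicit false

noncomputable section

namespace FA.ToralPeriodic

open FA.ToralEntropy Polynomial Filter Topology Real

variable {ι : Type*} [Fintype ι] [DecidableEq ι]

theorem fixedPoints_infinite (A : Matrix ι ι ℤ) {n : ℕ} (h : (A ^ n - 1).det = 0) :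
    {x | (toral A)^[n] x = x}.Infinite := by
  rw [fixedPoints_eq]
  exact infinite_kernel h

theorem fixedPoints_card (A : Matrix ι ι ℤ) {n : ℕ} (h : (A ^ n - 1).det ≠ 0) :
    {x | (toral A)^[n] x = x}.Finite ∧
      Nat.card {x | (toral A)^[n] x = x} = (A ^ n - 1).det.natAbs := by
  rw [fixedPoints_eq]
  exact card_kernel h

theorem det_pow_sub_one_ne_zero_iff (A : Matrix ι ι ℤ) {n : ℕ} (hn : 0 < n) :
    (A ^ n - 1).det ≠ 0 ↔ ∀ z ∈ A.charpoly.aroots ℂ, z ^ n ≠ 1 := by
  rw [← (Int.cast_injective (α := ℂ)).ne_iff, Int.cast_zero, det_pow_sub_one A hn, Ne,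
    Multiset.prod_eq_zero_iff]
  simp [sub_eq_zero]

theorem fixedPoints_finite_iff (A : Matrix ι ι ℤ) :
    (∀ n : ℕ, 0 < n → {x | (toral A)^[n] x = x}.Finite) ↔
      ∀ z ∈ A.charpoly.aroots ℂ, ∀ m : ℕ, 0 < m → z ^ m ≠ 1 := by
  refine ⟨fun h z hz m hm => ?_, fun h n hn => (fixedPoints_card A
    ((det_pow_sub_one_ne_zero_iff A hn).2 fun z hz => h z hz n hn)).1⟩
  exact (det_pow_sub_one_ne_zero_iff A hm).1
    (fun h0 => fixedPoints_infinite A h0 (h m hm)) z hz

/-- **The growth of the number of periodic points.** -/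
theorem tendsto_log_card (A : Matrix ι ι ℤ)
    (h : ∀ z ∈ A.charpoly.aroots ℂ, ∀ m : ℕ, 0 < m → z ^ m ≠ 1) :
    Tendsto (fun n : ℕ => log (Nat.card {x | (toral A)^[n] x = x}) / n) atTop
      (𝓝 (A.charpoly.map (Int.castRingHom ℂ)).logMahlerMeasure) := by
  refine (tendsto_log_pierce A.charpoly_monic.ne_zero h).congr' ?_
  filter_upwards [eventually_ge_atTop 1] with n hn
  rw [(fixedPoints_card A ((det_pow_sub_one_ne_zero_iff A hn).2 fun z hz => h z hz n hn)).2,
    A.charpoly_monic.leadingCoeff, Int.cast_one, one_pow, one_mul, ← det_pow_sub_one A hn,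
    Complex.norm_intCast, Nat.cast_natAbs, Int.cast_abs]

end FA.ToralPeriodic

end
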